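/-
Programme S33, A-half, piece (γ) (helper79): **coordinates on `T ⊗[R] X`** for `T` free over `R` with
a basis `b`, NATURAL in `X` (Mathlib only; generalises `Flat83.EigenFaith.coordM` from endomorphisms of
one module to arbitrary `R`-linear maps `X → Y`).

* `coord b j : T ⊗[R] X →ₗ[R] X`, `coord_tmul`, `coord_baseChange`, `coord_lTensor`, `eq_zero_of_coord`;
* `coordEquiv b : T ⊗[R] X ≃ₗ[R] (ι → X)` (`ι` finite), `coordEquiv_apply`, `coordEquiv_baseChange`;
* `coordPi b r : (Fin r → T ⊗[R] X) ≃ₗ[R] (Fin (r * d) → X)` for `b : Basis (Fin d) R T`,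
  `coordPi_apply`, `coordPi_baseChange` (naturality / equivariance), `coordPi_injective`;
* `embedPi` : an injective `Ψ : V → (Fin r → T ⊗ X)` equivariant for `(ρX g).baseChange T` gives an
  injective `R`-linear `V → (Fin (r * d) → X)` equivariant for `ρX g` (second half of
  `Flat83.EigenEmbed.exists_embedding`, for any target).
-/
import Mathlib

set_option autoImplicit false
set_option linter.unusedSectionVars false

noncomputable section

namespace Fermat.Agent.S33P.Coord79

open TensorProduct

variable {R : Type*} [CommRing R] {T : Type*} [CommRing T] [Algebra R T]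
variable {ι : Type*} (b : Module.Basis ι R T)
variable {X Y : Type*} [AddCommGroup X] [Module R X] [AddCommGroup Y] [Module R Y]

/-- the `j`-th coordinate `T ⊗ X → X`. -/
def coord (j : ι) : T ⊗[R] X →ₗ[R] X :=
  (TensorProduct.lid R X).toLinearMap ∘ₗ (b.coord j).rTensor X

theorem coord_tmul (j : ι) (t : T) (x : X) : coord b j (t ⊗ₜ[R] x) = b.repr t j • x := by
  simp [coord]

/-- **naturality** (base-change form). -/
theorem coord_baseChange (j : ι) (f : X →ₗ[R] Y) (z : T ⊗[R] X) :
    coord b j (f.baseChange T z) = f (coord b j z) := by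
  induction z using TensorProduct.induction_on with
  | zero => simp
  | tmul t x => rw [LinearMap.baseChange_tmul, coord_tmul, coord_tmul, map_smul]
  | add x y hx hy => rw [map_add, map_add, map_add, map_add, hx, hy]

/-- **naturality** (`lTensor` form). -/
theorem coord_lTensor (j : ι) (f : X →ₗ[R] Y) (z : T ⊗[R] X) :
    coord b j (f.lTensor T z) = f (coord b j z) := by
  induction z using TensorProduct.induction_on with
  | zero => simp
  | tmul t x => rw [LinearMap.lTensor_tmul, coord_tmul, coord_tmul, map_smul]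
  | add x y hx hy => rw [map_add, map_add, map_add, map_add, hx, hy]

theorem eq_zero_of_coord (z : T ⊗[R] X) (h : ∀ j, coord b j z = 0) : z = 0 := by
  classical
  apply (TensorProduct.equivFinsuppOfBasisLeft b).injective
  rw [map_zero]
  ext j
  rw [TensorProduct.equivFinsuppOfBasisLeft_apply, Finsupp.zero_apply]
  exact h j

theorem coord_injective {z w : T ⊗[R] X} (h : ∀ j, coord b j z = coord b j w) : z = w := by
  rw [← sub_eq_zero]
  apply eq_zero_of_coord b
  intro j
  rw [map_sub, h j, sub_self]

section Finite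

variable [Finite ι]

/-- **coordinates**: `T ⊗[R] X ≃ (ι → X)`. -/
def coordEquiv : T ⊗[R] X ≃ₗ[R] (ι → X) :=
  haveI := Classical.decEq ι
  (TensorProduct.equivFinsuppOfBasisLeft b) ≪≫ₗ Finsupp.linearEquivFunOnFinite R X ι

theorem coordEquiv_apply (z : T ⊗[R] X) (j : ι) : coordEquiv b z j = coord b j z := by
  classical
  unfold coordEquiv
  rw [LinearEquiv.trans_apply, Finsupp.linearEquivFunOnFinite_apply,
    TensorProduct.equivFinsuppOfBasisLeft_apply]
  rfl

theorem coordEquiv_tmul (t : T) (x : X) (j : ι) :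
    coordEquiv b (t ⊗ₜ[R] x) j = b.repr t j • x := by
  rw [coordEquiv_apply, coord_tmul]

/-- **naturality of the coordinates.** -/
theorem coordEquiv_baseChange (f : X →ₗ[R] Y) (z : T ⊗[R] X) :
    coordEquiv b (f.baseChange T z) = fun j => f (coordEquiv b z j) := by
  funext j
  rw [coordEquiv_apply, coordEquiv_apply, coord_baseChange]

theorem coordEquiv_lTensor (f : X →ₗ[R] Y) (z : T ⊗[R] X) :
    coordEquiv b (f.lTensor T z) = fun j => f (coordEquiv b z j) := by
  funext j
  rw [coordEquiv_apply, coordEquiv_apply, coord_lTensor]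

end Finite

section Pi

variable {d : ℕ} (bd : Module.Basis (Fin d) R T) (r : ℕ)

/-- **coordinates on a finite power**: `(T ⊗ X)^r ≃ X^(r d)`. -/
def coordPi : (Fin r → T ⊗[R] X) ≃ₗ[R] (Fin (r * d) → X) :=
  (LinearEquiv.piCongrRight fun _ : Fin r => coordEquiv (X := X) bd) ≪≫ₗ
    (LinearEquiv.curry R X (Fin r) (Fin d)).symm ≪≫ₗ
    LinearEquiv.funCongrLeft R X finProdFinEquiv.symm

theorem coordPi_apply (z : Fin r → T ⊗[R] X) (k : Fin (r * d)) :
    coordPi bd r z k =
      coord bd (finProdFinEquiv.symm k).2 (z (finProdFinEquiv.symm k).1) := by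
  unfold coordPi
  rw [LinearEquiv.trans_apply, LinearEquiv.trans_apply, LinearEquiv.funCongrLeft_apply,
    LinearMap.funLeft_apply]
  show coordEquiv bd (z (finProdFinEquiv.symm k).1) (finProdFinEquiv.symm k).2 = _
  rw [coordEquiv_apply]

/-- **naturality of the coordinates on a finite power.** -/
theorem coordPi_baseChange (f : X →ₗ[R] Y) (z : Fin r → T ⊗[R] X) :
    coordPi bd r (fun i => f.baseChange T (z i)) = fun k => f (coordPi bd r z k) := by
  funext k
  rw [coordPi_apply, coordPi_apply, coord_baseChange]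

theorem coordPi_lTensor (f : X →ₗ[R] Y) (z : Fin r → T ⊗[R] X) :
    coordPi bd r (fun i => f.lTensor T (z i)) = fun k => f (coordPi bd r z k) := by
  funext k
  rw [coordPi_apply, coordPi_apply, coord_lTensor]

theorem coordPi_injective : Function.Injective (coordPi (X := X) bd r) :=
  (coordPi bd r).injective

end Pi

section Embed

variable {d : ℕ} (bd : Module.Basis (Fin d) R T)
variable {V : Type*} [AddCommGroup V] [Module T V] [Module R V] [IsScalarTower R T V]
variable {G : Type*}

/-- **From a `T`-linear equivariant embedding into `(T ⊗ X)^r` to an `R`-linear equivariant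
embedding into `X^(r d)`.** -/
theorem embedPi {r : ℕ} (Ψ : V →ₗ[T] (Fin r → T ⊗[R] X)) (hΨ : Function.Injective Ψ)
    (ρV : G → V → V) (ρX : G → X →ₗ[R] X)
    (heq : ∀ (g : G) (v : V) (i : Fin r), Ψ (ρV g v) i = (ρX g).baseChange T (Ψ v i)) :
    ∃ Ψ' : V →ₗ[R] (Fin (r * d) → X), Function.Injective Ψ' ∧
      (∀ (g : G) (v : V) (k : Fin (r * d)), Ψ' (ρV g v) k = ρX g (Ψ' v k)) ∧
      ∀ (v : V) (k : Fin (r * d)), Ψ' v k =
        coord bd (finProdFinEquiv.symm k).2 (Ψ v (finProdFinEquiv.symm k).1) := by
  refine ⟨(coordPi (X := X) bd r).toLinearMap ∘ₗ (Ψ.restrictScalars R), ?_, ?_, ?_⟩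
  · intro v w h
    exact hΨ ((coordPi (X := X) bd r).injective h)
  · intro g v k
    show coordPi bd r (Ψ (ρV g v)) k = ρX g (coordPi bd r (Ψ v) k)
    have e : Ψ (ρV g v) = fun i => (ρX g).baseChange T (Ψ v i) := funext fun i => heq g v i
    rw [e, coordPi_baseChange]
  · intro v k
    show coordPi bd r (Ψ v) k = _
    rw [coordPi_apply]

end Embed

end Fermat.Agent.S33P.Coord79
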