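/-
Programme S33, A-half, piece (β) (helper79): **tensor plumbing for `T ⊗[R] -` with `T` flat over `R`**
(Mathlib only).  `K' ≤ M'` an `R`-submodule, `β : M' →ₗ[R] Q`, `f : M' →ₗ[R] Y`.

* `tensorSub T K' : Submodule T (T ⊗[R] M')` := the image of `T ⊗ K'` (`mem_tensorSub_iff`,
  `tmul_mem_tensorSub`, `tensorSub_induction`);
* `lTensor_subtype_injective`, `baseChange_subtype_injective` : `T ⊗ K' → T ⊗ M'` is injective (flat);
* `ker_baseChange_eq` : `ker (β.baseChange T) = tensorSub T (ker β)` (flat);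
* `ker_baseChange_mkQ` : `ker (K'.mkQ.baseChange T) = tensorSub T K'` (NO flatness), `baseChange_mkQ_surjective`;
* `baseChange_eq_zero_of_mem_tensorSub` : `f.baseChange T` kills `T ⊗ K'` if `f` kills `K'`;
* `baseChange_mem_tensorSub` : `tensorSub T K'` is stable under `g.baseChange T` if `K'` is stable under `g`;
* `quotTensorEquiv` : `(T ⊗ M') ⧸ tensorSub T K' ≃ₗ[T] T ⊗ (M' ⧸ K')`, `quotTensorEquiv_mk`.
-/
import Mathlib

set_option autoImplicit false
set_option linter.unusedSectionVars false

noncomputable section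

namespace Fermat.Agent.S33P.Coord79

open TensorProduct

variable {R : Type*} [CommRing R] (T : Type*) [CommRing T] [Algebra R T]
variable {M' Q Y : Type*} [AddCommGroup M'] [Module R M'] [AddCommGroup Q] [Module R Q]
  [AddCommGroup Y] [Module R Y]

/-- the image of `T ⊗ K'` in `T ⊗ M'`, as a `T`-submodule. -/
def tensorSub (K' : Submodule R M') : Submodule T (T ⊗[R] M') :=
  LinearMap.range (K'.subtype.baseChange T)

variable {T}

theorem mem_tensorSub_iff (K' : Submodule R M') (z : T ⊗[R] M') :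
    z ∈ tensorSub T K' ↔ ∃ w : T ⊗[R] K', K'.subtype.baseChange T w = z := Iff.rfl

theorem mem_tensorSub_iff_lTensor (K' : Submodule R M') (z : T ⊗[R] M') :
    z ∈ tensorSub T K' ↔ z ∈ LinearMap.range (K'.subtype.lTensor T) := Iff.rfl

theorem tmul_mem_tensorSub (K' : Submodule R M') (t : T) {k : M'} (hk : k ∈ K') :
    t ⊗ₜ[R] k ∈ tensorSub T K' :=
  ⟨t ⊗ₜ[R] ⟨k, hk⟩, by rw [LinearMap.baseChange_tmul]; rfl⟩

/-- induction principle for `tensorSub`: pure tensors `t ⊗ k`, `k ∈ K'`, and sums. -/
theorem tensorSub_induction (K' : Submodule R M') {P : T ⊗[R] M' → Prop}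
    (h0 : P 0) (htmul : ∀ (t : T) (k : M'), k ∈ K' → P (t ⊗ₜ[R] k))
    (hadd : ∀ z w, P z → P w → P (z + w)) {z : T ⊗[R] M'} (hz : z ∈ tensorSub T K') : P z := by
  obtain ⟨w, rfl⟩ := hz
  induction w using TensorProduct.induction_on with
  | zero => rw [map_zero]; exact h0
  | tmul t k => rw [LinearMap.baseChange_tmul]; exact htmul t k k.2
  | add x y hx hy => rw [map_add]; exact hadd _ _ hx hy

theorem tensorSub_mono {K₁ K₂ : Submodule R M'} (h : K₁ ≤ K₂) :
    tensorSub T K₁ ≤ tensorSub T K₂ := by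
  intro z hz
  refine tensorSub_induction (P := fun z => z ∈ tensorSub T K₂) K₁ (Submodule.zero_mem _)
    (fun t k hk => ?_) (fun _ _ hz hw => Submodule.add_mem _ hz hw) hz
  exact tmul_mem_tensorSub K₂ t (h hk)

/-- `f.baseChange T` kills `T ⊗ K'` if `f` kills `K'`. -/
theorem baseChange_eq_zero_of_mem_tensorSub (K' : Submodule R M') (f : M' →ₗ[R] Y)
    (hf : ∀ k ∈ K', f k = 0) {z : T ⊗[R] M'} (hz : z ∈ tensorSub T K') :
    f.baseChange T z = 0 := by
  refine tensorSub_induction (P := fun z => f.baseChange T z = 0) K' (map_zero _)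
    (fun t k hk => ?_) (fun z w hz hw => by rw [map_add, hz, hw, add_zero]) hz
  rw [LinearMap.baseChange_tmul, hf k hk, tmul_zero]

/-- `tensorSub T K'` is stable under `g.baseChange T` if `K'` is stable under `g`. -/
theorem baseChange_mem_tensorSub (K' : Submodule R M') (g : M' →ₗ[R] M')
    (hg : ∀ k ∈ K', g k ∈ K') {z : T ⊗[R] M'} (hz : z ∈ tensorSub T K') :
    g.baseChange T z ∈ tensorSub T K' := by
  refine tensorSub_induction (P := fun z => g.baseChange T z ∈ tensorSub T K') K'
    (by rw [map_zero]; exact Submodule.zero_mem _) (fun t k hk => ?_)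
    (fun z w hz hw => by rw [map_add]; exact Submodule.add_mem _ hz hw) hz
  rw [LinearMap.baseChange_tmul]
  exact tmul_mem_tensorSub K' t (hg k hk)

/-- more generally: `g : M' → Q` mapping `K'` into `L'`. -/
theorem baseChange_mem_tensorSub' (K' : Submodule R M') (L' : Submodule R Q) (g : M' →ₗ[R] Q)
    (hg : ∀ k ∈ K', g k ∈ L') {z : T ⊗[R] M'} (hz : z ∈ tensorSub T K') :
    g.baseChange T z ∈ tensorSub T L' := by
  refine tensorSub_induction (P := fun z => g.baseChange T z ∈ tensorSub T L') K'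
    (by rw [map_zero]; exact Submodule.zero_mem _) (fun t k hk => ?_)
    (fun z w hz hw => by rw [map_add]; exact Submodule.add_mem _ hz hw) hz
  rw [LinearMap.baseChange_tmul]
  exact tmul_mem_tensorSub L' t (hg k hk)

/-! ### right exactness (no flatness) -/

theorem baseChange_surjective {β : M' →ₗ[R] Q} (hβ : Function.Surjective β) :
    Function.Surjective (β.baseChange T) :=
  LinearMap.lTensor_surjective T hβ

/-- `ker (T ⊗ M' → T ⊗ (M'/K')) = T ⊗ K'` (right exactness of the tensor product). -/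
theorem ker_baseChange_mkQ (K' : Submodule R M') :
    LinearMap.ker (K'.mkQ.baseChange T) = tensorSub T K' := by
  have hex : Function.Exact K'.subtype K'.mkQ := by
    intro x
    rw [Submodule.mkQ_apply, Submodule.Quotient.mk_eq_zero]
    constructor
    · intro hx
      exact ⟨⟨x, hx⟩, rfl⟩
    · rintro ⟨y, rfl⟩
      exact y.2
  have h2 := lTensor_exact T hex (Submodule.mkQ_surjective K')
  ext z
  rw [LinearMap.mem_ker, mem_tensorSub_iff_lTensor]
  exact h2 z

/-- `ker (β.baseChange T) = T ⊗ ker β` for SURJECTIVE `β` (right exactness; no flatness). -/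
theorem ker_baseChange_of_surjective {β : M' →ₗ[R] Q} (hβ : Function.Surjective β) :
    LinearMap.ker (β.baseChange T) = tensorSub T (LinearMap.ker β) := by
  have h2 := lTensor_exact T β.exact_subtype_ker_map hβ
  ext z
  rw [LinearMap.mem_ker, mem_tensorSub_iff_lTensor]
  exact h2 z

/-! ### flatness -/

section Flat

variable [Module.Flat R T]

theorem lTensor_subtype_injective (K' : Submodule R M') :
    Function.Injective (K'.subtype.lTensor T) :=
  Module.Flat.lTensor_preserves_injective_linearMap K'.subtype K'.injective_subtype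

theorem baseChange_subtype_injective (K' : Submodule R M') :
    Function.Injective (K'.subtype.baseChange T) :=
  lTensor_subtype_injective K'

theorem baseChange_injective {β : M' →ₗ[R] Q} (hβ : Function.Injective β) :
    Function.Injective (β.baseChange T) :=
  Module.Flat.lTensor_preserves_injective_linearMap β hβ

/-- **`ker (id_T ⊗ β) = T ⊗ ker β`** for `T` flat. -/
theorem ker_baseChange_eq (β : M' →ₗ[R] Q) :
    LinearMap.ker (β.baseChange T) = tensorSub T (LinearMap.ker β) := by
  have h2 := Module.Flat.lTensor_exact T β.exact_subtype_ker_map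
  ext z
  rw [LinearMap.mem_ker, mem_tensorSub_iff_lTensor]
  exact h2 z

theorem baseChange_eq_zero_iff (β : M' →ₗ[R] Q) (z : T ⊗[R] M') :
    β.baseChange T z = 0 ↔ z ∈ tensorSub T (LinearMap.ker β) := by
  rw [← ker_baseChange_eq, LinearMap.mem_ker]

/-- the preimage of `T ⊗ L'` under `g.baseChange T` is `T ⊗ g⁻¹ L'` (flat). -/
theorem baseChange_mem_tensorSub_iff (L' : Submodule R Q) (g : M' →ₗ[R] Q) (z : T ⊗[R] M') :
    g.baseChange T z ∈ tensorSub T L' ↔ z ∈ tensorSub T (L'.comap g) := by
  have e : L'.comap g = LinearMap.ker (L'.mkQ ∘ₗ g) := by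
    ext x
    rw [Submodule.mem_comap, LinearMap.mem_ker, LinearMap.comp_apply, Submodule.mkQ_apply,
      Submodule.Quotient.mk_eq_zero]
  rw [e, ← baseChange_eq_zero_iff, LinearMap.baseChange_comp, LinearMap.comp_apply,
    ← LinearMap.mem_ker, ker_baseChange_mkQ]

end Flat

/-! ### the quotient -/

/-- `(T ⊗ M') ⧸ (T ⊗ K') ≃ T ⊗ (M' ⧸ K')`. -/
def quotTensorEquiv (K' : Submodule R M') :
    ((T ⊗[R] M') ⧸ tensorSub T K') ≃ₗ[T] T ⊗[R] (M' ⧸ K') :=
  (Submodule.quotEquivOfEq _ _ (ker_baseChange_mkQ (T := T) K').symm) ≪≫ₗ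
    (K'.mkQ.baseChange T).quotKerEquivOfSurjective
      (baseChange_surjective (Submodule.mkQ_surjective K'))

theorem quotTensorEquiv_mk (K' : Submodule R M') (z : T ⊗[R] M') :
    quotTensorEquiv K' (Submodule.Quotient.mk z) = K'.mkQ.baseChange T z := rfl

end Fermat.Agent.S33P.Coord79
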